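/-
T16 / U5 (helper42), part 1: the combinatorial heart of the case `l ≥ 5`, `l ≠ p` of the upper
bound in S16.  Mathlib only.

If `G ∈ M_2(Γ₀(p))` has `l`-integral conjugates `G_x` with `G_∞ ≡ c` and `G_j ≡ a (= -c/p)` mod `l`
(`p` of them), the elementary symmetric functions `e_i(G_x)` are level-one forms of weight `2 i`
congruent mod `l` to the constants `e_i(c, a, ..., a)`.  By Swinnerton-Dyer these constants vanish
unless `(l - 1) ∣ 2 i`.  The theorem below says that this is impossible when `c ≠ 0`:
the polynomial `(X + c)(X + a)^p` is not of the form `X^? * R(X^((l-1)/2))`, because its roots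
would be stable under multiplication by `ω = 4` (of order dividing `(l-1)/2`, `ω ≠ 1`), with
multiplicities; but `-c` is a simple root and the only other root `-a` has multiplicity `p ≥ 2`.
No relation between `a` and `c` is needed.  Stated over any field of characteristic `l`
(e.g. the residue field of `ℤ_(l)[ζ_p]` at a prime above `l`) and over `ZMod l`.
-/
import Mathlib

set_option autoImplicit false

namespace Fermat.Agent.S16.U5

open Polynomial

/-- Root bookkeeping: in `K` (`l ≥ 5` prime) the elementary symmetric functions of the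
multiset `{c, a, a, ..., a}` (`a` repeated `p ≥ 2` times, `c ≠ 0`) cannot all vanish in the
degrees `i` with `(l - 1) ∤ 2 i`. -/
theorem exists_esymm_ne_zero_of_charP {K : Type*} [Field K] {l : ℕ} [hl : Fact l.Prime]
    [CharP K l] (hl5 : 5 ≤ l) {p : ℕ} (hp2 : 2 ≤ p) (c a : K) (hc : c ≠ 0) :
    ∃ i, i ≤ p + 1 ∧ ¬ (l - 1) ∣ 2 * i ∧ (c ::ₘ Multiset.replicate p a).esymm i ≠ 0 := by
  by_contra hcon
  push Not at hcon
  set s : Multiset (K) := c ::ₘ Multiset.replicate p a with hs
  have hcard : Multiset.card s = p + 1 := by simp [hs]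
  set Q : (K)[X] := (s.map fun r => X + C r).prod with hQ
  have hQ' : Q = (X + C c) * (X + C a) ^ p := by
    simp [hQ, hs, Multiset.map_replicate, Multiset.prod_replicate]
  -- the scaling element
  obtain ⟨d, hd⟩ : ∃ d, l - 1 = 2 * d := by
    have hodd : Odd l := hl.out.odd_of_ne_two (by omega)
    obtain ⟨k, hk⟩ := hodd
    exact ⟨k, by omega⟩
  set ω : K := 4 with hω
  have h2 : (2 : K) ≠ 0 := by
    intro h
    have : (l : ℕ) ∣ 2 := (CharP.cast_eq_zero_iff K l 2).1 (by exact_mod_cast h)
    have := Nat.le_of_dvd (by norm_num) this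
    omega
  have hω0 : ω ≠ 0 := by
    have : ω = 2 * 2 := by rw [hω]; norm_num
    rw [this]; exact mul_ne_zero h2 h2
  have hω1 : ω ≠ 1 := by
    intro h
    have h3 : (3 : K) = 0 := by
      have : (3 : K) = ω - 1 := by rw [hω]; norm_num
      rw [this, h, sub_self]
    have : (l : ℕ) ∣ 3 := (CharP.cast_eq_zero_iff K l 3).1 (by exact_mod_cast h3)
    have := Nat.le_of_dvd (by norm_num) this
    omega
  have hωd : ω ^ d = 1 := by
    have : ω = 2 ^ 2 := by rw [hω]; norm_num
    rw [this, ← pow_mul, ← hd]
    have hfrob : (2 : K) ^ l = 2 := by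
      have := add_pow_char (R := K) (p := l) (1 : K) 1
      rw [one_pow, one_add_one_eq_two] at this
      exact this
    have hl1 : l = (l - 1) + 1 := by omega
    rw [hl1, pow_succ] at hfrob
    have : (2 : K) ^ (l - 1) * 2 = 1 * 2 := by rw [one_mul]; exact hfrob
    exact mul_right_cancel₀ h2 this
  -- coefficients of `Q`
  have hcoeff : ∀ k, Q.coeff k ≠ 0 → k ≤ p + 1 ∧ d ∣ (p + 1 - k) := by
    intro k hk
    have hdeg : Q.natDegree ≤ p + 1 := by
      rw [hQ']
      refine (natDegree_mul_le).trans ?_
      have h1 : (X + C c : (K)[X]).natDegree ≤ 1 := (natDegree_X_add_C c).le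
      have h2 : ((X + C a : (K)[X]) ^ p).natDegree ≤ p := by
        refine natDegree_pow_le.trans ?_
        have := (natDegree_X_add_C a).le
        nlinarith
      omega
    have hk1 : k ≤ p + 1 := (le_natDegree_of_ne_zero hk).trans hdeg
    refine ⟨hk1, ?_⟩
    have hke : Q.coeff k = s.esymm (p + 1 - k) := by
      rw [hQ, Multiset.prod_X_add_C_coeff s (by rw [hcard]; exact hk1), hcard]
    by_contra hnd
    apply hk
    rw [hke]
    apply hcon (p + 1 - k) (by omega)
    intro hdvd
    apply hnd
    rw [hd] at hdvd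
    exact (Nat.mul_dvd_mul_iff_left (by norm_num)).1 hdvd
  -- scaling identity
  have hscale : Q.comp (C ω * X) = C (ω ^ (p + 1)) * Q := by
    ext k
    rw [comp_C_mul_X_coeff, coeff_C_mul]
    by_cases hk : Q.coeff k = 0
    · rw [hk, zero_mul, mul_zero]
    · obtain ⟨hk1, e, he⟩ := hcoeff k hk
      have : ω ^ (p + 1) = ω ^ k := by
        have : p + 1 = k + d * e := by omega
        rw [this, pow_add, pow_mul, hωd, one_pow, mul_one]
      rw [this, mul_comm]
  have heval : ∀ y, Q.eval (ω * y) = ω ^ (p + 1) * Q.eval y := by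
    intro y
    have := congrArg (Polynomial.eval y) hscale
    simpa [eval_comp] using this
  have hQeval : ∀ y, Q.eval y = (y + c) * (y + a) ^ p := by
    intro y; rw [hQ']; simp
  -- `ω * (-c)` is a root
  have hroot : Q.eval (ω * (-c)) = 0 := by
    rw [heval, hQeval]; simp
  rw [hQeval] at hroot
  have hac : ω * (-c) + a = 0 := by
    rcases mul_eq_zero.1 hroot with h | h
    · exfalso
      have : (1 - ω) * c = 0 := by linear_combination h
      rcases mul_eq_zero.1 this with h' | h'
      · exact hω1 (by linear_combination -h')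
      · exact hc h'
    · exact pow_eq_zero_iff (by omega) |>.1 h
  have hane : a ≠ c := by
    intro h
    have : (1 - ω) * c = 0 := by rw [h] at hac; linear_combination hac
    rcases mul_eq_zero.1 this with h' | h'
    · exact hω1 (by linear_combination -h')
    · exact hc h'
  -- derivatives
  have hder : ∀ y, (derivative Q).eval y =
      (y + a) ^ p + (y + c) * ((p : K) * (y + a) ^ (p - 1)) := by
    intro y
    rw [hQ']
    simp [derivative_mul, derivative_pow]
  have hscale' : C ω * (derivative Q).comp (C ω * X) = C (ω ^ (p + 1)) * derivative Q := by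
    have := congrArg derivative hscale
    rwa [derivative_comp, derivative_C_mul, derivative_C_mul, derivative_X, mul_one] at this
  have hder2 : ω * (derivative Q).eval (ω * (-c)) = ω ^ (p + 1) * (derivative Q).eval (-c) := by
    have := congrArg (Polynomial.eval (-c)) hscale'
    rw [eval_mul, eval_mul, eval_C, eval_C, eval_comp, eval_mul, eval_C, eval_X] at this
    exact this
  have hz : (derivative Q).eval (ω * (-c)) = 0 := by
    rw [hder, hac]
    have hp1 : p - 1 ≠ 0 := by omega
    simp [zero_pow (show p ≠ 0 by omega), zero_pow hp1]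
  rw [hz, mul_zero] at hder2
  have hnz : (derivative Q).eval (-c) ≠ 0 := by
    rw [hder]
    simp only [neg_add_cancel, zero_mul, add_zero]
    apply pow_ne_zero
    intro h
    exact hane (by linear_combination h)
  rcases mul_eq_zero.1 hder2.symm with h | h
  · exact pow_ne_zero _ hω0 h
  · exact hnz h

/-- The same over `ZMod l`. -/
theorem exists_esymm_ne_zero {l : ℕ} [Fact l.Prime] (hl5 : 5 ≤ l) {p : ℕ} (hp2 : 2 ≤ p)
    (c a : ZMod l) (hc : c ≠ 0) :
    ∃ i, i ≤ p + 1 ∧ ¬ (l - 1) ∣ 2 * i ∧ (c ::ₘ Multiset.replicate p a).esymm i ≠ 0 :=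
  exists_esymm_ne_zero_of_charP (K := ZMod l) hl5 hp2 c a hc

end Fermat.Agent.S16.U5
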