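import Fermat.Agent.S16.Conj.CharPoly
import Fermat.Agent.S16.Conj.SymCoset
import Fermat.Agent.S16.Conj.Expand
import Fermat.Agent.S16.LocalRing
import Fermat.Agent.S16.U5.Esymm
import Fermat.Agent.S16.NoConst

/-!
# T16 / U5 (helper42): `NoConstInt p l 1` for primes `l ≥ 5`, `l ≠ p`

Glue: conjugates (helper20 `Conj/CharPoly.lean`) + `ℤ_(l)` (helper30 `LocalRing.lean`) +
Lucas-type lemma (`U5/Esymm.lean`) + the three inputs (T) trace, (S) symmetric functions are level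
one forms, (D) Swinnerton-Dyer, taken here as hypotheses.
-/

set_option autoImplicit false

open UpperHalfPlane ModularForm CongruenceSubgroup ModularFormClass
open scoped MatrixGroups ModularForm Manifold

namespace Fermat.Agent.S16.U5

open Fermat.Agent.S23 (G0 IsMF)
open Fermat.Agent.S16.Conj Fermat.Agent.S16.Rl
open Fermat.Agent.S20.Puiseux (comp coeff_comp)

variable {p l : ℕ} [hp : Fact p.Prime] [hl : Fact l.Prime]

lemma not_dvd_prime (hlp : l ≠ p) : ¬ (l : ℤ) ∣ (p : ℤ) := by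
  intro h
  have h' : l ∣ p := by exact_mod_cast h
  exact hlp ((Nat.prime_dvd_prime_iff_eq hl.out hp.out).mp h')

/-- `1 / p ∈ ℤ_(l)` for `l ≠ p`. -/
lemma inv_prime_mem_Zl (hlp : l ≠ p) : ((p : ℂ))⁻¹ ∈ Zl l :=
  ⟨1, (p : ℤ), not_dvd_prime hlp, by simp⟩

/-- The abstract core: a weight-2 form `G` on `Γ₀(p)` whose expansion at `∞` is `c₀ + l·(…)` and
whose expansion at `0` is given by the trace identity cannot exist, given (S) and (D). -/
theorem false_of_data (hl5 : 5 ≤ l) (hlp : l ≠ p) {G : ℍ → ℂ} (hG : IsMF (G0 p) 2 G)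
    (c₀ : ℤ) (hc₀ : ¬ (l : ℤ) ∣ c₀) (h0 : (qExpansion 1 G).coeff 0 = (c₀ : ℂ))
    (hk : ∀ k : ℕ, 1 ≤ k → ∃ c : ℤ, (qExpansion 1 G).coeff k = (l : ℂ) ^ 1 * (c : ℂ))
    (hT : ∀ n : ℕ, (qExpansion (p : ℝ) (qcCuspZero 2 G)).coeff n =
      - (qExpansion 1 G).coeff (p * n) / (p : ℂ))
    (hS : ∀ j : ℕ, j ≤ p + 1 → IsMF 𝒮ℒ ((j : ℤ) * 2) (qcEsymm p 2 G j))
    (hD : ∀ (k : ℤ) (f : ℍ → ℂ), IsMF 𝒮ℒ k f →
      ∀ hint : (∀ n, (qExpansion 1 f).coeff n ∈ Zl l), red l ⟨_, hint 0⟩ ≠ 0 →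
        (∀ n, 1 ≤ n → red l ⟨_, hint n⟩ = 0) → ((l : ℤ) - 1) ∣ k) : False := by
  have : NeZero p := ⟨hp.out.ne_zero⟩
  have hp2 : 2 ≤ p := hp.out.two_le
  have hpC : (p : ℂ) ≠ 0 := by exact_mod_cast hp.out.ne_zero
  -- coefficients at `∞`
  have h1 : ∀ n, (qExpansion 1 G).coeff n ∈ Zl l := by
    intro n
    rcases Nat.eq_zero_or_pos n with rfl | hn
    · rw [h0]; exact intCast_mem l c₀
    · obtain ⟨c, hc⟩ := hk n hn
      rw [hc, pow_one]
      exact (Zl l).mul_mem (natCast_mem l l) (intCast_mem l c)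
  have h1red0 : red l ⟨_, h1 0⟩ = (c₀ : ZMod l) := by
    have : (⟨_, h1 0⟩ : Zl l) = ⟨(c₀ : ℂ), intCast_mem l c₀⟩ := Subtype.ext h0
    rw [this, red_intCast l]
  have h1red : ∀ n, 1 ≤ n → red l ⟨_, h1 n⟩ = 0 := by
    intro n hn
    obtain ⟨c, hc⟩ := hk n hn
    rw [red_eq_zero_iff l]
    refine ⟨⟨(c : ℂ), intCast_mem l c⟩, ?_⟩
    show (qExpansion 1 G).coeff n = _
    rw [hc, pow_one]
  -- coefficients at `0`
  have h2 : ∀ n, (qExpansion (p : ℝ) (qcCuspZero 2 G)).coeff n ∈ Zl l := by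
    intro n
    rw [hT n, div_eq_mul_inv]
    exact (Zl l).mul_mem ((Zl l).neg_mem (h1 _)) (inv_prime_mem_Zl hlp)
  have h2red0 : red l ⟨_, h2 0⟩ = ((-c₀ : ℤ) : ZMod l) / ((p : ℤ) : ZMod l) := by
    apply red_eq_of_repr l _ _ _ (not_dvd_prime hlp)
    show (qExpansion (p : ℝ) (qcCuspZero 2 G)).coeff 0 = _
    rw [hT 0, mul_zero, h0]
    push_cast
    rfl
  have h2red : ∀ n, 1 ≤ n → red l ⟨_, h2 n⟩ = 0 := by
    intro n hn
    obtain ⟨c, hc⟩ := hk (p * n) (Nat.mul_pos hp.out.pos hn)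
    rw [red_eq_zero_iff l]
    refine ⟨⟨-(c : ℂ) * (p : ℂ)⁻¹, (Zl l).mul_mem ((Zl l).neg_mem (intCast_mem l c))
      (inv_prime_mem_Zl hlp)⟩, ?_⟩
    show (qExpansion (p : ℝ) (qcCuspZero 2 G)).coeff n = _
    rw [hT n, hc, pow_one]
    field_simp
  -- integral models
  set aS : PowerSeries (Zl l) := PowerSeries.mk fun n => (⟨_, h1 n⟩ : Zl l) with haS
  set bS : ℕ → PowerSeries (Zl l) :=
    fun i => PowerSeries.mk fun m => (⟨_, h2 (i + m * p)⟩ : Zl l) with hbS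
  have ha : PowerSeries.map (Zl l).subtype aS = qExpansion (1 : ℝ) G := by
    ext n; simp [haS]
  have hb : ∀ i, i < p → PowerSeries.map (Zl l).subtype (bS i) = comp p i (qcCuspZero 2 G) := by
    intro i _
    ext m; simp [hbS]
  set φ : PowerSeries (Zl l) →+* PowerSeries (ZMod l) := PowerSeries.map (red l) with hφdef
  have hφa : φ aS = PowerSeries.C (c₀ : ZMod l) := by
    ext n
    rw [hφdef, PowerSeries.coeff_map, haS, PowerSeries.coeff_mk, PowerSeries.coeff_C]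
    split_ifs with hn
    · subst hn; exact h1red0
    · exact h1red n (Nat.pos_of_ne_zero hn)
  have hφb0 : φ (bS 0) = PowerSeries.C (((-c₀ : ℤ) : ZMod l) / ((p : ℤ) : ZMod l)) := by
    ext m
    rw [hφdef, PowerSeries.coeff_map, hbS, PowerSeries.coeff_mk, PowerSeries.coeff_C]
    split_ifs with hm
    · subst hm
      have : (⟨_, h2 (0 + 0 * p)⟩ : Zl l) = ⟨_, h2 0⟩ := by
        apply Subtype.ext; simp
      rw [this]; exact h2red0
    · exact h2red _ (by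
        have : 0 < m := Nat.pos_of_ne_zero hm
        have := Nat.mul_pos this hp.out.pos
        omega)
  have hφb : ∀ i, 0 < i → i < p → φ (bS i) = 0 := by
    intro i hi _
    ext m
    rw [hφdef, PowerSeries.coeff_map, hbS, PowerSeries.coeff_mk, map_zero]
    exact h2red _ (by omega)
  -- the Lucas-type lemma
  have hc0 : (c₀ : ZMod l) ≠ 0 := zmod_ne_zero hc₀
  obtain ⟨j, hj, hndvd, hne⟩ := exists_esymm_ne_zero hl5 hp2 (c₀ : ZMod l)
    (((-c₀ : ℤ) : ZMod l) / ((p : ℤ) : ZMod l)) hc0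
  have he := map_qcEsymmModel hG (Zl l).subtype aS bS ha hb hj
  have hcong := map_qcEsymmModel_of_eq_zero φ aS bS hφb hj
  rw [hφa, hφb0] at hcong
  have hC : (PowerSeries.C (c₀ : ZMod l) ::ₘ Multiset.replicate p
      (PowerSeries.C (((-c₀ : ℤ) : ZMod l) / ((p : ℤ) : ZMod l)))).esymm j =
      PowerSeries.C (((c₀ : ZMod l) ::ₘ Multiset.replicate p
        (((-c₀ : ℤ) : ZMod l) / ((p : ℤ) : ZMod l))).esymm j) := by
    rw [qc_map_multiset_esymm]
    simp [Multiset.map_replicate]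
  rw [hC] at hcong
  -- the `q`-expansion of `e_j`
  have hcoeff : ∀ n, (qExpansion 1 (qcEsymm p 2 G j)).coeff n =
      (((qcEsymmModel p aS bS j).coeff n : Zl l) : ℂ) := by
    intro n
    rw [← he, PowerSeries.coeff_map]
    rfl
  have hint : ∀ n, (qExpansion 1 (qcEsymm p 2 G j)).coeff n ∈ Zl l := by
    intro n; rw [hcoeff n]; exact Subtype.property _
  have hredn : ∀ n, red l ⟨_, hint n⟩ = PowerSeries.coeff n (φ (qcEsymmModel p aS bS j)) := by
    intro n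
    rw [hφdef, PowerSeries.coeff_map]
    congr 1
    exact Subtype.ext (hcoeff n)
  have hdvd := hD _ _ (hS j hj) hint
    (by rw [hredn 0, hcong, PowerSeries.coeff_zero_C]; exact hne)
    (fun n hn => by
      rw [hredn n, hcong, PowerSeries.coeff_C, if_neg (by omega)])
  apply hndvd
  have h5 : ((l - 1 : ℕ) : ℤ) ∣ ((2 * j : ℕ) : ℤ) := by
    have hl1 : 1 ≤ l := by omega
    push_cast [Nat.cast_sub hl1]
    rw [mul_comm]
    exact hdvd
  exact Int.natCast_dvd_natCast.mp h5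

/-- **U5 from the three inputs** (T) trace identity at the cusp `0`, (S) the elementary symmetric
functions of the conjugates are level one forms, (D) Swinnerton-Dyer. -/
theorem noConstInt_of_inputs (hl5 : 5 ≤ l) (hlp : l ≠ p)
    (hT : ∀ (G : ModularForm (Gamma0 p) 2) (n : ℕ),
      (qExpansion (p : ℝ) (qcCuspZero 2 ⇑G)).coeff n = - (qExpansion 1 ⇑G).coeff (p * n) / (p : ℂ))
    (hS : ∀ (G : ModularForm (Gamma0 p) 2) (j : ℕ), j ≤ p + 1 →
      IsMF 𝒮ℒ ((j : ℤ) * 2) (qcEsymm p 2 ⇑G j))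
    (hD : ∀ (k : ℤ) (f : ℍ → ℂ), IsMF 𝒮ℒ k f →
      ∀ hint : (∀ n, (qExpansion 1 f).coeff n ∈ Zl l), red l ⟨_, hint 0⟩ ≠ 0 →
        (∀ n, 1 ≤ n → red l ⟨_, hint n⟩ = 0) → ((l : ℤ) - 1) ∣ k) :
    NoConstInt p l 1 := by
  rintro ⟨G, ⟨c₀, hc₀, h0⟩, hk⟩
  exact false_of_data hl5 hlp (Fermat.Agent.S23.ModularForm.isMF G) c₀ hc₀ h0 hk (hT G) (hS G) hD

/-- **U5 from Swinnerton-Dyer alone**: inputs (T) (helper71 `Conj/Expand.lean`) and (S) (helper23
`Conj/SymCoset.lean`) discharged. -/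
theorem noConstInt_of_sd (hl5 : 5 ≤ l) (hlp : l ≠ p)
    (hD : ∀ (k : ℤ) (f : ℍ → ℂ), IsMF 𝒮ℒ k f →
      ∀ hint : (∀ n, (qExpansion 1 f).coeff n ∈ Zl l), red l ⟨_, hint 0⟩ ≠ 0 →
        (∀ n, 1 ≤ n → red l ⟨_, hint n⟩ = 0) → ((l : ℤ) - 1) ∣ k) :
    NoConstInt p l 1 := by
  have : NeZero p := ⟨hp.out.ne_zero⟩
  refine noConstInt_of_inputs hl5 hlp (fun G n => ?_) (fun G j _ => isMF_qcEsymm G j) hD
  exact Expand.IsG0.coeff_qExpansion_slash_S (Expand.IsG0.of_modularForm G) n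

end Fermat.Agent.S16.U5
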