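import Fermat.Agent.S16.U5.Main
import Fermat.Agent.S16.SD.Final

/-!
# T16 / U5 (helper42): FINAL — `NoConstInt p l 1` for all primes `l ≥ 5`, `l ≠ p`

`noConstInt_five (p) [Fact p.Prime] : ∀ l, l.Prime → 5 ≤ l → l ≠ p → NoConstInt p l 1`
= hypothesis `h5` of `Arith.upper` / `Arith.upper_of_cases'`.
Inputs: conjugates (helper20 CharPoly, helper23 SymCoset, helper71 Expand), `ℤ_(l)` (helper30),
Swinnerton-Dyer (helper27 `SD.swinnertonDyer_Zl`), Lucas-type lemma (`U5/Esymm.lean`).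
-/

set_option autoImplicit false

namespace Fermat.Agent.S16.U5

/-- **U5**: no weight-2 form on `Γ₀(p)` is `c₀ + l·(integral, no constant term)` with `l ∤ c₀`,
for primes `l ≥ 5`, `l ≠ p`. -/
theorem noConstInt_of_prime {p l : ℕ} [Fact p.Prime] [Fact l.Prime] (hl5 : 5 ≤ l) (hlp : l ≠ p) :
    NoConstInt p l 1 :=
  noConstInt_of_sd hl5 hlp (fun k f hf hint h0 hn => SD.swinnertonDyer_Zl l hl5 k f hf hint h0 hn)

/-- `h5` of `Arith.upper`. -/
theorem noConstInt_five (p : ℕ) [Fact p.Prime] :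
    ∀ l : ℕ, l.Prime → 5 ≤ l → l ≠ p → NoConstInt p l 1 := by
  intro l hl hl5 hlp
  have : Fact l.Prime := ⟨hl⟩
  exact noConstInt_of_prime hl5 hlp

end Fermat.Agent.S16.U5
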